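/-
S56 marathon, block (E1) "finiteness" (helper5), file 1.
**`H¹_sm(V, 𝔽_p)` is finite** for the open subgroups `V` of a class formation `(G, 𝒰, C)` below `U₀`:
the Bockstein–cup pairing `H¹(V, 𝔽_p) × C^V → H²(V, C)[p]` is nondegenerate on the left (norm
statement (N) and the cup criterion), `C^V / p` is finite (F) and `H²(V, C)[p]` has at most `p`
elements (T), so `H¹(V, 𝔽_p)` injects into the finite set of maps `C^V / p → H²(V, C)[p]`.

* `finite_of_separating` : the abstract counting statement;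
* `finite_H1Fp_of_norm` : the abstract formation version (same hypotheses as helper3's
  `cf4_surj_of_norm`);
* `finite_H1Fp_global` : for `(G_ℚ, unrBasis S, CSfull S)`, `p` odd, `p ∈ S`, `V ≤ U₀` open,
  `U₀` fixing `ζ_p` — unconditional.
-/
import Mathlib
import Fermat.Agent.S55lib.LocalUnr.GCF4
import Fermat.Agent.S55lib.ExistP.GlobalCF4
import Fermat.Agent.S55lib.Dev.GlobalCF
import Fermat.Agent.S55lib.Recip.FundClassStmt

set_option autoImplicit false
set_option linter.unusedSectionVars false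
set_option linter.style.haveILetI false

noncomputable section

namespace Fermat.Agent.S56lib.Fin

open groupCohomology Fermat.Agent.S55lib Fermat.Agent.S55lib.Recip Fermat.Agent.S55lib.CFDual
  Fermat.Agent.S55lib.LocalUnr

section Abstract

variable {p : ℕ} [Fact p.Prime]

/-- **Counting lemma, finiteness form.**  Let `B : X × W → T` be bi-additive, `X` killed by `p`,
`W / W^p` finite, `T[p]` of order at most `p`, and `B` nondegenerate on the left.  Then `X` is
finite. -/
theorem finite_of_separating {X W T : Type*} [AddCommGroup X] [CommGroup W]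
    [AddCommGroup T] (B : X → W → T)
    (hBl : ∀ x x' w, B (x + x') w = B x w + B x' w)
    (hBr : ∀ x w w', B x (w * w') = B x w + B x w')
    (hX : ∀ x : X, p • x = 0)
    (hfin : (powMonoidHom p : W →* W).range.FiniteIndex)
    (hT : ∀ S : Finset T, (∀ t ∈ S, p • t = 0) → S.card ≤ p)
    (hL : ∀ x, (∀ w, B x w = 0) → x = 0) : Finite X := by
  classical
  -- the `p`-torsion of `T`
  let T' : AddSubgroup T := (nsmulAddMonoidHom p : T →+ T).ker
  have hmemT' : ∀ t : T, t ∈ T' ↔ p • t = 0 := fun t => AddMonoidHom.mem_ker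
  have hfinT' : Finite T' := by
    by_contra hinf
    rw [not_finite_iff_infinite] at hinf
    obtain ⟨S, hS⟩ := Infinite.exists_subset_card_eq T' (p + 1)
    have h1 := hT (S.map ⟨Subtype.val, Subtype.val_injective⟩) (by
      intro t ht
      rw [Finset.mem_map] at ht
      obtain ⟨t', -, rfl⟩ := ht
      exact (hmemT' t'.1).mp t'.2)
    rw [Finset.card_map, hS] at h1
    omega
  let Bw : W → X →+ T := fun w => AddMonoidHom.mk' (fun x => B x w) (fun x x' => hBl x x' w)
  have hBp : ∀ x w, p • B x w = 0 := fun x w => by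
    have := map_nsmul (Bw w) p x
    rw [hX, map_zero] at this
    exact this.symm
  have hBpow : ∀ x w (n : ℕ), B x (w ^ n) = n • B x w := by
    intro x w n
    induction n with
    | zero =>
      rw [pow_zero, zero_smul]
      have := hBr x 1 1
      rw [mul_one] at this
      exact left_eq_add.mp this
    | succ n ih => rw [pow_succ, hBr, ih, succ_nsmul]
  haveI : Finite (W ⧸ (powMonoidHom p : W →* W).range) :=
    Subgroup.finite_quotient_of_finiteIndex
  let F : X → (W ⧸ (powMonoidHom p : W →* W).range) → T' := fun x q =>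
    ⟨B x q.out, (hmemT' _).mpr (hBp x q.out)⟩
  have hF : Function.Injective F := by
    intro x x' hxx'
    have hsub : x - x' = 0 := by
      apply hL
      intro w
      have hmem : w⁻¹ * (w : W ⧸ (powMonoidHom p : W →* W).range).out ∈
          (powMonoidHom p : W →* W).range := by
        rw [← QuotientGroup.eq]
        exact (QuotientGroup.out_eq' _).symm
      obtain ⟨v, hv⟩ := hmem
      have hout : (w : W ⧸ (powMonoidHom p : W →* W).range).out = w * v ^ p := by
        rw [powMonoidHom_apply] at hv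
        rw [hv, mul_inv_cancel_left]
      have h1 : ∀ y : X, B y (w : W ⧸ (powMonoidHom p : W →* W).range).out = B y w := by
        intro y
        rw [hout, hBr, hBpow, hBp, add_zero]
      have h2 := congrArg (fun f => ((f (w : W ⧸ (powMonoidHom p : W →* W).range) : T') : T)) hxx'
      simp only [F] at h2
      rw [h1, h1] at h2
      have h3 : B (x - x') w = B x w - B x' w := map_sub (Bw w) x x'
      rw [h3, h2, sub_self]
    exact sub_eq_zero.mp hsub
  exact Finite.of_injective F hF

end Abstract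

section Formation

variable {G : Type} [Group G] (𝒰 : OpenBasis G) (C : Rep.{0} ℤ G) {p : ℕ} [Fact p.Prime]

/-- **`H¹_sm(V, 𝔽_p)` is finite**, abstract formation version, from (CF1), (N), (F), (T). -/
theorem finite_H1Fp_of_norm (V : Subgroup G) (hV : 𝒰.IsOpen V)
    (h1 : ∀ W : Subgroup G, 𝒰.IsOpen W → W ≤ V →
      ∀ x : Hsm (𝒰.comap W.subtype) (Rep.res W.subtype C) 1, p • x = 0 → x = 0)
    (hN : ∀ (χ : V → ZMod p) (hχ : IsSmChar (𝒰.comap V.subtype) χ) (σ : V), χ σ = 1 →
      ∃ c : C, (∀ v ∈ V, C.ρ v c = c) ∧ ¬ IsNormFrom C (charKer V χ hχ.1) (σ : G) p c)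
    (hF : ∃ T : Finset C, ∀ c : C, (∀ v ∈ V, C.ρ v c = c) →
      ∃ t ∈ T, ∃ c' : C, (∀ v ∈ V, C.ρ v c' = c') ∧ c = t + p • c')
    (hT : ∀ A : Finset (Hsm (𝒰.comap V.subtype) (Rep.res V.subtype C) 2),
      (∀ y ∈ A, p • y = 0) → A.card ≤ p) :
    Finite (Hsm (𝒰.comap V.subtype) (trivFp p V) 1) := by
  classical
  let I : AddSubgroup C :=
    { carrier := {c | ∀ v ∈ V, C.ρ v c = c}
      zero_mem' := fun v _ => map_zero _
      add_mem' := fun {a b} ha hb v hv => by rw [map_add, ha v hv, hb v hv]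
      neg_mem' := fun {a} ha v hv => by rw [map_neg, ha v hv] }
  have hI : ∀ c : C, c ∈ I ↔ ∀ v ∈ V, C.ρ v c = c := fun c => Iff.rfl
  let B : Hsm (𝒰.comap V.subtype) (trivFp p V) 1 → Multiplicative I →
      Hsm (𝒰.comap V.subtype) (Rep.res V.subtype C) 2 := fun x w =>
    (Csm.map (𝒰.comap V.subtype) (constHom V C (w.toAdd : C) w.toAdd.2)).mapH 2
      (bock p (𝒰.comap V.subtype) x)
  have hB : ∀ {χ : V → ZMod p} (hχ : IsSmChar (𝒰.comap V.subtype) χ) (w : Multiplicative I),
      B (charClass hχ) w =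
        smCup hχ (A := Rep.res V.subtype C) (a := (w.toAdd : C)) (fun g => w.toAdd.2 g.1 g.2) :=
    fun hχ w => constHom_bock_charClass_gen 𝒰 C V _ w.toAdd.2 hχ
  have hfin : (powMonoidHom p : Multiplicative I →* Multiplicative I).range.FiniteIndex := by
    obtain ⟨T, hT'⟩ := hF
    let T' : Type := {t : C // t ∈ T ∧ t ∈ I}
    haveI : Finite T' := by
      have : Function.Injective (fun t : T' => (⟨t.1, t.2.1⟩ : T)) := fun a b h =>
        Subtype.ext (congrArg (fun z : T => (z : C)) h)
      exact Finite.of_injective _ this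
    let f : T' → Multiplicative I ⧸ (powMonoidHom p : Multiplicative I →* Multiplicative I).range :=
      fun t => QuotientGroup.mk (Multiplicative.ofAdd ⟨t.1, t.2.2⟩)
    have hf : Function.Surjective f := by
      intro y
      induction y using QuotientGroup.induction_on with
      | H w =>
        obtain ⟨t, ht, c', hc', hcw⟩ := hT' (w.toAdd : C) w.toAdd.2
        have htI : t ∈ I := by
          have : t = (w.toAdd : C) - p • c' := by rw [hcw]; abel
          rw [this]
          exact I.sub_mem w.toAdd.2 (I.nsmul_mem hc' p)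
        refine ⟨⟨t, ht, htI⟩, ?_⟩
        rw [QuotientGroup.eq]
        refine ⟨Multiplicative.ofAdd ⟨c', hc'⟩, ?_⟩
        apply Multiplicative.toAdd.injective
        apply Subtype.ext
        change p • c' = -t + (w.toAdd : C)
        rw [hcw]
        abel
    haveI : Finite (Multiplicative I ⧸
        (powMonoidHom p : Multiplicative I →* Multiplicative I).range) := Finite.of_surjective f hf
    exact Subgroup.finiteIndex_of_finite_quotient
  refine finite_of_separating (p := p) B
    (fun x x' w => by simp only [B, map_add])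
    (fun x w w' => by
      obtain ⟨χ, hχ, rfl⟩ := exists_charClass_eq x
      rw [hB, hB, hB]
      exact smCup_add_right hχ (A := Rep.res V.subtype C) (fun g => w.toAdd.2 g.1 g.2)
        (fun g => w'.toAdd.2 g.1 g.2))
    (nsmul_Hsm_trivFp (𝒰.comap V.subtype))
    hfin hT
    (fun x hx => by
      obtain ⟨χ, hχ, rfl⟩ := exists_charClass_eq x
      rw [charClass_eq_zero_iff]
      by_contra hne
      have hne' : ∃ g, χ g ≠ 0 := by
        by_contra hcon
        push Not at hcon
        exact hne (funext hcon)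
      obtain ⟨σ, hσ⟩ := exists_char_eq_one hχ.1 hne'
      obtain ⟨c, hc, hcn⟩ := hN χ hχ σ hσ
      apply hcn
      refine isNormFrom_of_smCup_eq_zero 𝒰 C hV h1 hχ σ hσ c hc ?_
      have := hx (Multiplicative.ofAdd ⟨c, hc⟩)
      rw [hB] at this
      exact this)

end Formation

section Global

variable {S : Finset Nat.Primes} {p : ℕ} [hp : Fact p.Prime]

/-- **`H¹_sm(V, 𝔽_p)` is finite** for `(G_ℚ, unrBasis S, CSfull S)`, from the field statements. -/
theorem finite_H1Fp_global_of (hN : NFieldStatement p S) (hF : FFieldStatement p S)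
    (U₀ : Subgroup GQ)
    {ζ : Qbar} (hζ : IsPrimitiveRoot ζ p) (hU₀ : ∀ v ∈ U₀, v ζ = ζ)
    (hcf1 : ∀ W : Subgroup GQ, (unrBasis S).IsOpen W → W ≤ U₀ →
      ∀ x : Hsm ((unrBasis S).comap W.subtype) (Rep.res W.subtype (CSfull S)) 1, p • x = 0 → x = 0)
    (hT : ∀ V : Subgroup GQ, (unrBasis S).IsOpen V → V ≤ U₀ →
      ∀ A : Finset (Hsm ((unrBasis S).comap V.subtype) (Rep.res V.subtype (CSfull S)) 2),
        (∀ y ∈ A, p • y = 0) → A.card ≤ p)
    (V : Subgroup GQ) (hV : (unrBasis S).IsOpen V) (hVU : V ≤ U₀) :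
    Finite (Hsm ((unrBasis S).comap V.subtype) (trivFp p V) 1) := by
  have hTV := hT V hV hVU
  obtain ⟨K, hK, rfl⟩ := exists_field_of_isOpen S hV
  have hζK : ζ ∈ K := mem_of_fixed_Qbar K fun v hv => hU₀ v (hVU hv)
  refine finite_H1Fp_of_norm (unrBasis S) (CSfull S) K.fixingSubgroup hV
    (fun W hW hWV => hcf1 W hW (hWV.trans hVU)) ?_ (hF K hK ⟨ζ, hζK, hζ⟩) hTV
  intro χ hχ σ hσ
  obtain ⟨M, hM, hlayer, hker⟩ := exists_layer_of_smChar S hK hχ hσ
  obtain ⟨c, hc, hcn⟩ := hN K hK ⟨ζ, hζK, hζ⟩ M hM hlayer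
  refine ⟨c, hc, ?_⟩
  rw [hker]
  refine hcn σ.1 σ.2 ?_
  intro hσM
  rw [← hker] at hσM
  have := (mem_charKer_iff hχ.1 σ).1 hσM
  rw [hσ] at this
  exact one_ne_zero this

/-- **`H¹_sm(V, 𝔽_p)` is finite** for every open `V ≤ U₀` of `G_ℚ` (w.r.t. `unrBasis S`), `p` odd,
`p ∈ S`, `U₀` fixing a primitive `p`-th root of unity.  Unconditional. -/
theorem finite_H1Fp_global (hp2 : p ≠ 2) (hpS : (⟨p, hp.out⟩ : Nat.Primes) ∈ S)
    {ζ : Qbar} (hζ : IsPrimitiveRoot ζ p) (U₀ : Subgroup GQ) (hU₀ : ∀ v ∈ U₀, v ζ = ζ)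
    (V : Subgroup GQ) (hV : (unrBasis S).IsOpen V) (hVU : V ≤ U₀) :
    Finite (Hsm ((unrBasis S).comap V.subtype) (trivFp p V) 1) := by
  have hlayers : Dev.GlobalCyclicLayers p := Places.globalCyclicLayers hp2
  have hS : S.Nonempty := ⟨_, hpS⟩
  have htop : Dev.TopClassStatement p S :=
    Dev.topClassStatement_of_fundClass (Recip.fundClassStatement hp2) hS
  exact finite_H1Fp_global_of (ExistP.nFieldStatement S hp2 hpS) (ExistP.fFieldStatement S hp2 hpS)
    U₀ hζ hU₀
    (fun W hW hWU x hx => Dev.cf1_inj_global hlayers htop hS hζ U₀ hU₀ W hW hWU x hx)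
    (fun V hV hVU A hA => Dev.card_torsion_le_global hlayers htop hS hζ U₀ hU₀ V hV hVU A hA)
    V hV hVU

end Global

end Fermat.Agent.S56lib.Fin
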