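/-
S56 marathon, block (E1) "finiteness" (helper5), file 2.
**`H¹_sm(G, A)` is finite for a finite smooth module `A` killed by `p`**, given an open normal subgroup
`V` acting trivially on `A` with `H¹_sm(V, 𝔽_p)` finite:
a smooth 1-cocycle `f : G → A` is determined by its values on representatives of `G / V` and by the
smooth characters `λ ∘ f|_V : V → 𝔽_p` (`λ` running through the additive functionals of `A`).

* `charClass_injective`, `finite_smChar` : smooth characters ↔ `H¹_sm(V, 𝔽_p)`;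
* `finite_Z1_of_trivial_on`, `finite_H1_of_trivial_on` : the abstract statement;
* `finite_H0` : `H⁰_sm(G, A)` is finite for finite `A`;
* `finite_H1_global` : for `(G_ℚ, unrBasis S)`, `p` odd, `p ∈ S` — unconditional.
-/
import Mathlib
import Fermat.Agent.S56lib.Fin.H1Fp
import Fermat.Agent.S55lib.CFDual.Main

set_option autoImplicit false
set_option linter.unusedSectionVars false
set_option linter.style.haveILetI false

noncomputable section

namespace Fermat.Agent.S56lib.Fin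

open groupCohomology Fermat.Agent.S55lib Fermat.Agent.S55lib.Recip Fermat.Agent.S55lib.CFDual
  Fermat.Agent.S55lib.LocalUnr

section Abstract

variable {H : Type} [Group H] {𝒱 : OpenBasis H} {p : ℕ} [Fact p.Prime]

/-- a smooth character is determined by its class -/
theorem charClass_injective {χ χ' : H → ZMod p} (hχ : IsSmChar 𝒱 χ) (hχ' : IsSmChar 𝒱 χ')
    (h : charClass hχ = charClass hχ') : χ = χ' := by
  unfold charClass at h
  rw [Cpx.cl_eq_cl_iff, Cpx.mem_B_succ] at h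
  obtain ⟨y, hy⟩ := h
  funext g
  have h1 := Csm.fn₁_d y g
  rw [hy, Csm.fn₁_sub] at h1
  unfold charCochain at h1
  rw [Csm.fn₁_mk₁, Csm.fn₁_mk₁] at h1
  have h2 : χ g - χ' g = 0 := by
    have h3 : (χ - χ') g = (trivFp p H).ρ g (Csm.fn₀ y) - Csm.fn₀ y := h1
    have h4 : (trivFp p H).ρ g (Csm.fn₀ y) = Csm.fn₀ y := rfl
    rw [h4, sub_self] at h3
    exact h3
  exact sub_eq_zero.mp h2

/-- if `H¹_sm(H, 𝔽_p)` is finite, there are finitely many smooth characters `H → 𝔽_p` -/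
theorem finite_smChar (hfin : Finite (Hsm 𝒱 (trivFp p H) 1)) :
    Finite {χ : H → ZMod p // IsSmChar 𝒱 χ} :=
  Finite.of_injective (fun χ => charClass χ.2) fun χ χ' h =>
    Subtype.ext (charClass_injective χ.2 χ'.2 h)

end Abstract

/-- linear functionals separate the points of an `𝔽_p`-vector space -/
theorem exists_dual_ne_zero {p : ℕ} [Fact p.Prime] {A : Type*} [AddCommGroup A]
    [Module (ZMod p) A] (a : A) (ha : a ≠ 0) : ∃ l : A →ₗ[ZMod p] ZMod p, l a ≠ 0 := by
  by_contra hcon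
  push Not at hcon
  exact ha ((Module.forall_dual_apply_eq_zero_iff (ZMod p) a).mp hcon)

/-- additive functionals with values in `𝔽_p` separate the points of a group killed by `p` -/
theorem exists_addHom_ne_zero {p : ℕ} [Fact p.Prime] {A : Type*} [AddCommGroup A]
    (hpA : ∀ a : A, p • a = 0) (a : A) (ha : a ≠ 0) : ∃ l : A →+ ZMod p, l a ≠ 0 := by
  letI : Module (ZMod p) A := AddCommGroup.zmodModule hpA
  obtain ⟨l, hl⟩ := exists_dual_ne_zero (p := p) a ha
  exact ⟨l.toAddMonoidHom, hl⟩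

/-- the cohomology of a complex with finitely many cocycles is finite -/
theorem finite_H_of_finite_Z {k : Type} [CommRing k] (K : Cpx k) (n : ℕ) [Finite (K.Z n)] :
    Finite (K.H n) := by
  refine Finite.of_surjective (fun z : K.Z n => K.cl z.1 (K.mem_Z.1 z.2)) ?_
  intro h
  obtain ⟨x, hx, rfl⟩ := K.exists_rep h
  exact ⟨⟨x, K.mem_Z.2 hx⟩, rfl⟩

section Formation

variable {G : Type} [Group G] (𝒰 : OpenBasis G) {p : ℕ} [Fact p.Prime]

/-- the cocycle identity for an element of `Z¹` -/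
theorem fn₁_mul_of_mem_Z {A : Rep.{0} ℤ G} (z : (Csm 𝒰 A).Z 1) (g h : G) :
    Csm.fn₁ z.1 (g * h) = A.ρ g (Csm.fn₁ z.1 h) + Csm.fn₁ z.1 g :=
  (Csm.d_one_eq_zero_iff z.1).mp ((Csm 𝒰 A).mem_Z.1 z.2) g h

theorem fn₁_one_of_mem_Z {A : Rep.{0} ℤ G} (z : (Csm 𝒰 A).Z 1) : Csm.fn₁ z.1 1 = 0 := by
  have h := fn₁_mul_of_mem_Z 𝒰 z 1 1
  rw [mul_one, map_one] at h
  have h' : Csm.fn₁ z.1 1 = Csm.fn₁ z.1 1 + Csm.fn₁ z.1 1 := h
  exact left_eq_add.mp h'

/-- **the smooth 1-cocycles with values in a finite module killed by `p` form a finite set**, if some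
basic open subgroup `V` acts trivially and has finitely many smooth characters -/
theorem finite_Z1_of_trivial_on (A : Rep.{0} ℤ G) [Finite A] (hpA : ∀ a : A, p • a = 0)
    (V : Subgroup G) (hV : V ∈ 𝒰.sets) (htriv : ∀ v ∈ V, ∀ a : A, A.ρ v a = a)
    (hfin : Finite (Hsm (𝒰.comap V.subtype) (trivFp p V) 1)) :
    Finite ((Csm 𝒰 A).Z 1) := by
  classical
  haveI := finite_smChar hfin
  haveI : V.FiniteIndex := 𝒰.finiteIndex V hV
  haveI : Finite (G ⧸ V) := Subgroup.finite_quotient_of_finiteIndex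
  -- the restriction to `V`, composed with a functional, is a smooth character
  have hchar : ∀ (z : (Csm 𝒰 A).Z 1) (l : A →+ ZMod p),
      IsSmChar (𝒰.comap V.subtype) (fun v : V => l (Csm.fn₁ z.1 (v : G))) := by
    intro z l
    obtain ⟨U, hU, h1, -⟩ := Csm.isSm₁_fn₁ z.1
    refine ⟨fun v w => ?_, U.comap V.subtype, 𝒰.comap_mem_comap V.subtype hU, fun s hs => ?_⟩
    · show l (Csm.fn₁ z.1 ((v : G) * (w : G))) = _
      rw [fn₁_mul_of_mem_Z, htriv v.1 v.2, map_add, add_comm]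
    · have hs' : (s : G) ∈ U := hs
      have h2 := h1 1 (s : G) hs'
      rw [one_mul, fn₁_one_of_mem_Z] at h2
      show l (Csm.fn₁ z.1 (s : G)) = 0
      rw [h2, map_zero]
  let Φ : (Csm 𝒰 A).Z 1 → ((G ⧸ V) → A) ×
      ((A →+ ZMod p) → {χ : V → ZMod p // IsSmChar (𝒰.comap V.subtype) χ}) :=
    fun z => (fun q => Csm.fn₁ z.1 q.out, fun l => ⟨_, hchar z l⟩)
  haveI : Finite (A →+ ZMod p) :=
    Finite.of_injective (fun f : A →+ ZMod p => (f : A → ZMod p)) DFunLike.coe_injective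
  have hΦ : Function.Injective Φ := by
    intro z z' hzz'
    have h1 : ∀ q : G ⧸ V, Csm.fn₁ z.1 q.out = Csm.fn₁ z'.1 q.out := fun q =>
      congrFun (congrArg Prod.fst hzz') q
    have h2 : ∀ v : V, Csm.fn₁ z.1 (v : G) = Csm.fn₁ z'.1 (v : G) := by
      intro v
      by_contra hne
      obtain ⟨l, hl⟩ := exists_addHom_ne_zero hpA _ (sub_ne_zero.mpr hne)
      apply hl
      have h4 := congrFun (congrArg Prod.snd hzz') l
      have h5 := congrFun (congrArg Subtype.val h4) v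
      have h6 : l (Csm.fn₁ z.1 (v : G)) = l (Csm.fn₁ z'.1 (v : G)) := h5
      rw [map_sub, h6, sub_self]
    apply Subtype.ext
    apply Csm.ext₁
    funext g
    have hmem : (QuotientGroup.mk g : G ⧸ V).out⁻¹ * g ∈ V := by
      rw [← QuotientGroup.eq]
      exact QuotientGroup.out_eq' _
    have hg : (QuotientGroup.mk g : G ⧸ V).out * ((QuotientGroup.mk g : G ⧸ V).out⁻¹ * g) = g := by
      rw [mul_inv_cancel_left]
    have e1 := fn₁_mul_of_mem_Z 𝒰 z (QuotientGroup.mk g : G ⧸ V).out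
      ((QuotientGroup.mk g : G ⧸ V).out⁻¹ * g)
    have e2 := fn₁_mul_of_mem_Z 𝒰 z' (QuotientGroup.mk g : G ⧸ V).out
      ((QuotientGroup.mk g : G ⧸ V).out⁻¹ * g)
    rw [hg] at e1 e2
    rw [e1, e2, h1, h2 ⟨_, hmem⟩]
  exact Finite.of_injective Φ hΦ

/-- **`H¹_sm(G, A)` is finite** for a finite module killed by `p` on which a basic open subgroup
`V` with `H¹_sm(V, 𝔽_p)` finite acts trivially -/
theorem finite_H1_of_trivial_on (A : Rep.{0} ℤ G) [Finite A] (hpA : ∀ a : A, p • a = 0)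
    (V : Subgroup G) (hV : V ∈ 𝒰.sets) (htriv : ∀ v ∈ V, ∀ a : A, A.ρ v a = a)
    (hfin : Finite (Hsm (𝒰.comap V.subtype) (trivFp p V) 1)) :
    Finite (Hsm 𝒰 A 1) := by
  haveI := finite_Z1_of_trivial_on 𝒰 A hpA V hV htriv hfin
  exact finite_H_of_finite_Z _ 1

/-- `H⁰_sm(G, A)` is finite for finite `A` -/
theorem finite_H0 (A : Rep.{0} ℤ G) [Finite A] : Finite (Hsm 𝒰 A 0) := by
  have hinj : Function.Injective (fun z : (Csm 𝒰 A).Z 0 => Csm.fn₀ z.1) := fun z z' h =>
    Subtype.ext (Csm.ext₀ h)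
  haveI : Finite ((Csm 𝒰 A).Z 0) := Finite.of_injective _ hinj
  exact finite_H_of_finite_Z _ 0

end Formation

section Global

variable {S : Finset Nat.Primes} {p : ℕ} [hp : Fact p.Prime]

/-- **`H¹_sm(G_ℚ, A)` (topology of `G_S`) is finite** for every finite smooth module `A` killed by
`p`; `p` odd, `p ∈ S`. -/
theorem finite_H1_global (hp2 : p ≠ 2) (hpS : (⟨p, hp.out⟩ : Nat.Primes) ∈ S)
    (A : Rep.{0} ℤ GQ) [Finite A] (hsm : IsSm (unrBasis S) A) (hpA : ∀ a : A, p • a = 0) :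
    Finite (Hsm (unrBasis S) A 1) := by
  have : NeZero p := ⟨hp.out.ne_zero⟩
  obtain ⟨ζ, hζ⟩ := HasEnoughRootsOfUnity.exists_primitiveRoot Qbar p
  obtain ⟨F, hF, -, hmem⟩ := exists_level_mem_of_pow_eq_one S hpS 1
    (ζ := ζ) (by rw [pow_one]; exact hζ.pow_eq_one)
  obtain ⟨U₁, hU₁, hU₁le⟩ : (unrBasis S).IsOpen (LocalUnr.U0 ζ) :=
    LocalUnr.isOpen_U0 S ⟨F, hF, hmem⟩
  haveI : Module.Finite ℤ A := Module.Finite.of_finite
  obtain ⟨U₂, hU₂, hU₂triv⟩ := exists_triv_of_finite (unrBasis S) A hsm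
  obtain ⟨V, hV, hle⟩ := (unrBasis S).directed U₁ hU₁ U₂ hU₂
  have hVU₀ : V ≤ LocalUnr.U0 ζ := (hle.trans inf_le_left).trans hU₁le
  refine finite_H1_of_trivial_on (unrBasis S) A hpA V hV
    (fun v hv a => hU₂triv v ((hle.trans inf_le_right) hv) a) ?_
  exact finite_H1Fp_global hp2 hpS hζ (LocalUnr.U0 ζ) (LocalUnr.U0_fixes ζ) V ⟨V, hV, le_rfl⟩ hVU₀

end Global

end Fermat.Agent.S56lib.Fin
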