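/-
S56 marathon, block (E1) "finiteness" (helper5), file 4.
**Local finiteness**: for the local formation `(Gal(Ω/K₀), Ωˣ)` (helper3's setting) `H¹_sm(V, 𝔽_p)` is
finite for every open `V` (`finite_H1Fp_local`: left nondegeneracy of the smooth symbol,
`(Eˣ : Eˣᵖ) < ∞` and `|H²(F/E)[p]| ≤ p`), hence `H¹_sm(G_q, A)` is finite for every finite smooth
`G_q`-module `A` killed by `p` (`finite_H1_loc`), every pair of primes `p`, `q`.
-/
import Mathlib
import Fermat.Agent.S56lib.Fin.H1Gen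
import Fermat.Agent.S55lib.LocalH.LocalK5Primes

set_option autoImplicit false
set_option linter.unusedSectionVars false
set_option linter.style.haveILetI false

noncomputable section

namespace Fermat.Agent.S56lib.Fin

open groupCohomology Fermat.Agent.S55lib Fermat.Agent.S55lib.Recip Fermat.Agent.S55lib.CFDual
  Fermat.Agent.S55lib.LocalUnr Fermat.Agent.S55lib.LocalH

section Local

variable {K₀ Ω : Type} [NontriviallyNormedField K₀] [ProperSpace K₀] [NormedField Ω]
  [NormedAlgebra K₀ Ω] [IsUltrametricDist Ω] [IsGalois K₀ Ω]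
  (𝒰 : OpenBasis (Ω ≃ₐ[K₀] Ω)) [IsGalBasis K₀ Ω 𝒰] {p : ℕ} [Fact p.Prime]

/-- **`H¹_sm(V, 𝔽_p)` is finite for the local formation**, under the two inputs of helper3's
`cf4_surj_local`. -/
theorem finite_H1Fp_local
    (hfin : ∀ (E : IntermediateField K₀ Ω) [FiniteDimensional K₀ E],
      (powMonoidHom p : (↥E)ˣ →* (↥E)ˣ).range.FiniteIndex)
    (hlev : ∀ (E : IntermediateField K₀ Ω) [FiniteDimensional K₀ E]
      (F : FiniteGaloisIntermediateField E Ω)
      (S : Finset (groupCohomology (Rep.ofAlgebraAutOnUnits E F.toIntermediateField) 2)),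
      (∀ y ∈ S, p • y = 0) → S.card ≤ p)
    (V : Subgroup (Ω ≃ₐ[K₀] Ω)) (hV : 𝒰.IsOpen V) :
    Finite (Hsm (𝒰.comap V.subtype) (trivFp p V) 1) := by
  obtain ⟨E, hfd, rfl⟩ := exists_eq_fixingSubgroup_of_isOpen 𝒰 hV
  letI : GalBasis K₀ Ω := GalBasis.of K₀ Ω 𝒰
  let B : Hsm (subBasis E) (trivFp p ↥E.fixingSubgroup) 1 → (↥E)ˣ →
      Hsm (subBasis E) (subRep E) 2 := fun x w =>
    (Csm.map (subBasis E) (constHom E.fixingSubgroup (unitsRep K₀ Ω) (baseRep E w)
      (baseRep_invariant' E w))).mapH 2 (bock p (subBasis E) x)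
  have hB : ∀ {χ : ↥E.fixingSubgroup → ZMod p} (hχ : IsSmChar (subBasis E) χ) (w : (↥E)ˣ),
      B (charClass hχ) w = smCup hχ (baseRep_invariant E w) := fun hχ w =>
    constHom_bock_charClass E _ (baseRep_invariant' E w) hχ
  exact finite_of_separating (p := p) B
    (fun x x' w => by simp only [B, map_add])
    (fun x w w' => by
      obtain ⟨χ, hχ, rfl⟩ := exists_charClass_eq x
      rw [hB, hB, hB, ← smCup_add_right]
      exact smCup_congr rfl _ _ (by unfold baseRep; rw [baseUnit_mul, uRep_mul]) _ _)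
    (nsmul_Hsm_trivFp (subBasis E))
    (hfin E)
    (card_torsion_Hsm_le E (hlev E))
    (fun x hx => by
      obtain ⟨χ, hχ, rfl⟩ := exists_charClass_eq x
      rw [charClass_eq_zero_iff]
      by_contra hne
      have hne' : ∃ g, χ g ≠ 0 := by
        by_contra hcon
        push Not at hcon
        exact hne (funext hcon)
      obtain ⟨c, hc⟩ := exists_smCup_ne_zero_left E hχ hne'
      apply hc
      rw [← hB]
      exact hx c)

end Local

section Full

variable {K₀ Ω : Type} [NontriviallyNormedField K₀] [IsUltrametricDist K₀] [ProperSpace K₀]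
  [NormedField Ω] [NormedAlgebra K₀ Ω] [IsUltrametricDist Ω] [Algebra.IsIntegral K₀ Ω]
  [HasUnitRoots K₀ Ω] [IsGalois K₀ Ω] [GalBasis K₀ Ω]

/-- `H¹_sm(V, 𝔽_p)` is finite for every open subgroup `V` of a local Galois group (`p ≠ 0` in
`K₀`) -/
theorem finite_H1Fp_local_full (p : ℕ) [Fact p.Prime] (hp0 : (p : K₀) ≠ 0)
    (V : Subgroup (Ω ≃ₐ[K₀] Ω)) (hV : (basis K₀ Ω).IsOpen V) :
    Finite (Hsm ((basis K₀ Ω).comap V.subtype) (trivFp p V) 1) :=
  finite_H1Fp_local (basis K₀ Ω) (fun E _ => finiteIndex_range_pow_sub p hp0 E)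
    (fun E _ F S hS => card_torsion_H2_le E F p (Fact.out : p.Prime).ne_zero S hS) V hV

end Full

section Primes

variable (q : Nat.Primes) (p : ℕ) [Fact p.Prime]

/-- **`H¹_sm(V, 𝔽_p)` is finite** for every open subgroup `V` of `G_q = Gal(ℚ̄_q/ℚ_q)` -/
theorem finite_H1Fp_loc (V : Subgroup (Gloc q)) (hV : (basisLoc q).IsOpen V) :
    Finite (Hsm ((basisLoc q).comap V.subtype) (trivFp p V) 1) :=
  letI := galBasisLevel q
  finite_H1Fp_local_full (K₀ := ℚ_[(q : ℕ)]) (Ω := PadicAlgCl (q : ℕ)) p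
    (Nat.cast_ne_zero.mpr (Fact.out : p.Prime).ne_zero) V hV

/-- **`H¹_sm(G_q, A)` is finite** for every finite smooth `G_q`-module `A` killed by `p` -/
theorem finite_H1_loc (A : Rep.{0} ℤ (Gloc q)) [Finite A] (hsm : IsSm (basisLoc q) A)
    (hpA : ∀ a : A, p • a = 0) : Finite (Hsm (basisLoc q) A 1) := by
  haveI : Module.Finite ℤ A := Module.Finite.of_finite
  obtain ⟨V, hV, hVtriv⟩ := exists_triv_of_finite (basisLoc q) A hsm
  exact finite_H1_of_trivial_on (basisLoc q) A hpA V hV hVtriv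
    (finite_H1Fp_loc q p V ⟨V, hV, le_rfl⟩)

end Primes

end Fermat.Agent.S56lib.Fin
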