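/-
S56 marathon, block (E1) "finiteness" (helper5), file 5: **the consumer-facing finiteness statements**,
in helper4's interface language (`H1S`, `H2S`, `H1loc`, `H2loc` of `Iface/Top.lean`), for a finite
`𝔽_p[G_ℚ]`-module `M` unramified outside `S ∋ p`, `p` odd:

* `finite_H1S`, `finite_H1loc` : from `Fin/H1Gen`, `Fin/LocalFin`;
* `finite_H2loc` (`q ∈ S`) : local duality in degree 2 (helper8's `PT9.exists_β2`);
* `finite_H2S` : from the exact sequence `Ext¹(M′, C_S) → H²(G_S, M) → ∏ H²(G_q, M)` of the S55 proof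
  (`PTInput`), `Ext¹(M′, C_S) ≃ H¹(G_S, M′)^∨`;
* `FiniteDimensional` instances forms, as consumed by helper7's `PT9a.exists_pairings_card`.
-/
import Mathlib
import Fermat.Agent.S56lib.Fin.LocalFin
import Fermat.Agent.S56lib.PT9.H2EndFinal
import Fermat.Agent.S56lib.PT9a.PTLeft

set_option autoImplicit false
set_option linter.unusedSectionVars false
set_option linter.style.haveILetI false

noncomputable section

namespace Fermat.Agent.S56lib.Fin

open groupCohomology Fermat.Agent.S55lib Fermat.Agent.S55lib.CFDual ExtCitation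

/-- a group with a homomorphism with finite kernel into a finite group is finite -/
theorem finite_of_finite_ker {A B : Type*} [AddCommGroup A] [AddCommGroup B] [Finite B]
    (f : A →+ B) (hker : Finite f.ker) : Finite A := by
  classical
  let s : B → A := fun b => if h : ∃ a, f a = b then h.choose else 0
  have hs : ∀ a, f (s (f a)) = f a := by
    intro a
    have h : ∃ a', f a' = f a := ⟨a, rfl⟩
    simp only [s, dif_pos h]
    exact h.choose_spec
  let Φ : A → f.ker × B := fun a => (⟨a - s (f a), by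
    rw [AddMonoidHom.mem_ker, map_sub, hs, sub_self]⟩, f a)
  refine Finite.of_injective Φ ?_
  intro a a' h
  have h1 : f a = f a' := congrArg Prod.snd h
  have h2 : a - s (f a) = a' - s (f a') := congrArg (fun z => (z.1 : A)) h
  rw [h1] at h2
  exact sub_left_injective h2

variable (S : Finset Nat.Primes) {p : ℕ} [hp : Fact p.Prime]
  (M : Rep.{0} (ZMod p) GQ) [FiniteDimensional (ZMod p) M]

instance finite_toIntRep : Finite (toIntRep M) :=
  Module.finite_of_finite (ZMod p) (M := M)

theorem nsmul_toIntRep (a : toIntRep M) : p • a = 0 :=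
  ZModModule.char_nsmul_eq_zero p (a : M)

instance finite_dualTwist : Finite (M.dualTwist (cycloChar p)) := by
  have : Finite M := Module.finite_of_finite (ZMod p)
  exact Finite.of_injective (fun f : Module.Dual (ZMod p) M => (f : M → ZMod p))
    DFunLike.coe_injective

instance finiteDimensional_dualTwist : FiniteDimensional (ZMod p) (M.dualTwist (cycloChar p)) :=
  Module.Finite.of_finite

/-- **`H¹(G_S, M)` is finite** (`p` odd, `p ∈ S`) -/
theorem finite_H1S (hp2 : p ≠ 2) (hpS : (⟨p, hp.out⟩ : Nat.Primes) ∈ S)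
    (hM : Sm.IsSmooth (MonoidHom.id GQ) (LevelClass.unr S) M) : Finite (H1S S M) := by
  haveI : Finite (Hsm (unrBasis S) (toIntRep M) 1) :=
    finite_H1_global hp2 hpS (toIntRep M) (PT.isSm_M S M hM) (nsmul_toIntRep M)
  exact Finite.of_surjective (PT.φ1G S M) (PT.φ1G_bijective S M).2

/-- **`H¹(G_q, M)` is finite** (any primes `p`, `q`) -/
theorem finite_H1loc (hM : Sm.IsSmooth (MonoidHom.id GQ) (LevelClass.unr S) M) (q : S) :
    Finite (H1loc M q.1) := by
  haveI : Finite (Rep.res (rloc q.1) (toIntRep M)) := finite_toIntRep M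
  haveI : Finite (Hsm (basisLoc q.1) (Rep.res (rloc q.1) (toIntRep M)) 1) :=
    finite_H1_loc q.1 p (Rep.res (rloc q.1) (toIntRep M))
      (isSm_res_basisLoc S q.1 (PT.isSm_M S M hM)) (nsmul_toIntRep M)
  exact Finite.of_surjective (PT.φ1 S M q) (PT.φ1_bijective S M q).2

section Duality

variable (hp2 : p ≠ 2) (hpS : (⟨p, hp.out⟩ : Nat.Primes) ∈ S)
  (hM : Sm.IsSmooth (MonoidHom.id GQ) (LevelClass.unr S) M)

include hp2 hpS in
/-- the invariant data of the S55 proof, unconditionally -/
theorem nonempty_invData_uncond : Nonempty (PT.InvData S p) := by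
  have hT := Dev.card_torsion_le_top hp2 hpS
    (Dev.topClassStatement_of_fundClass (Recip.fundClassStatement hp2) ⟨_, hpS⟩)
  exact PT.nonempty_invData S hT (fun q => PT.exists_ne_zero_loc q.1 p) (PT.hIII hp2 S hpS)
    ⟨_, hpS⟩

include hp2 hpS hM in
/-- **`H²(G_q, M)` is finite** for `q ∈ S` -/
theorem finite_H2loc (q : S) : Finite (H2loc M q.1) := by
  obtain ⟨I⟩ := nonempty_invData_uncond S hp2 hpS
  obtain ⟨β, hβ, -⟩ := PT9.exists_β2 S hpS M hM I q (LocalH.k4Statement_loc q.1 p)
  haveI : Finite (PT9.D0q M q.1) := Finite.of_injective _ Subtype.val_injective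
  haveI : Finite (PT9.D0q M q.1 →+ ZMod p) :=
    Finite.of_injective (fun f : PT9.D0q M q.1 →+ ZMod p => (f : PT9.D0q M q.1 → ZMod p))
      DFunLike.coe_injective
  exact Finite.of_injective (fun x => β (PT9.e2 S hpS M hM q x))
    (hβ.1.comp (PT9.e2_bijective S hpS M hM q).1)

include hp2 hpS hM in
theorem finite_H2locAll : Finite (H2locAll S M) := by
  haveI : ∀ q : S, Finite (H2loc M q.1) := fun q => finite_H2loc S M hp2 hpS hM q
  exact Pi.finite

include hp2 hpS hM in
/-- **`H²(G_S, M)` is finite** -/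
theorem finite_H2S : Finite (H2S S M) := by
  obtain ⟨I⟩ := nonempty_invData_uncond S hp2 hpS
  have hK4 := Dev.k4_global_of_fundClass hp2 hpS (Recip.fundClassStatement hp2)
  obtain ⟨D⟩ := PT.nonempty_PTInput S hpS M hM I hK4 (fun q => LocalH.k4Statement_loc q.1 p)
  haveI : Finite (H1S S (M.dualTwist (cycloChar p))) :=
    finite_H1S S (M.dualTwist (cycloChar p)) hp2 hpS (isSmooth_dualTwist S hpS M hM)
  haveI : Finite (H1S S (M.dualTwist (cycloChar p)) →+ ZMod p) :=
    Finite.of_injective (fun f : H1S S (M.dualTwist (cycloChar p)) →+ ZMod p =>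
      (f : H1S S (M.dualTwist (cycloChar p)) → ZMod p)) DFunLike.coe_injective
  haveI : Finite D.X := Finite.of_injective D.α D.α_bijective.1
  haveI := finite_H2locAll S M hp2 hpS hM
  refine finite_of_finite_ker (locAll2 S M).toAddMonoidHom ?_
  have hsurj : Function.Surjective
      (fun ξ : D.X => (⟨D.δ ξ, by
        rw [AddMonoidHom.mem_ker]
        exact (D.exact_H2 _).2 ⟨ξ, rfl⟩⟩ : (locAll2 S M).toAddMonoidHom.ker)) := by
    rintro ⟨x, hx⟩
    obtain ⟨ξ, rfl⟩ := (D.exact_H2 x).1 (AddMonoidHom.mem_ker.mp hx)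
    exact ⟨ξ, rfl⟩
  exact Finite.of_surjective _ hsurj

end Duality

end Fermat.Agent.S56lib.Fin
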