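/-
S56 marathon, block (E1) "finiteness" (helper5), file 3.
**Multiplicativity of the Euler characteristic on short exact sequences**, abstract part:
* `card_eq_mul_of_exact` : `|Y| = |im f| · |im g|` for `X → Y → Z` exact at `Y`;
* `card_nine_term` : the alternating product of the orders over a nine-term exact sequence is `1`;
* `card_les_of_isSES` : for a short exact sequence of complexes `0 → K → L → M → 0` with finite
  cohomology in degrees `≤ 2` and `H³(K) = 0`,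
  `|H⁰K| |H⁰M| |H¹L| |H²K| |H²M| = |H⁰L| |H¹K| |H¹M| |H²L|`;
* `card_les_Hsm` : the same for smooth cohomology and a short exact sequence of coefficient modules.
-/
import Mathlib
import Fermat.Agent.S55lib.Cpx.LowDegree

set_option autoImplicit false
set_option linter.unusedSectionVars false
set_option linter.style.haveILetI false

noncomputable section

namespace Fermat.Agent.S56lib.Fin

open Fermat.Agent.S55lib

section Abstract

/-- `|Y| = |im f| · |im g|` for `X → Y → Z` exact at `Y` -/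
theorem card_eq_mul_of_exact {X Y Z : Type*} [AddCommGroup X] [AddCommGroup Y] [AddCommGroup Z]
    [Finite Y] (f : X →+ Y) (g : Y →+ Z) (h : ∀ y, g y = 0 ↔ ∃ x, f x = y) :
    Nat.card Y = Nat.card f.range * Nat.card g.range := by
  have hker : g.ker = f.range := by
    ext y
    rw [AddMonoidHom.mem_ker, AddMonoidHom.mem_range]
    exact h y
  have h1 := AddSubgroup.card_eq_card_quotient_mul_card_addSubgroup g.ker
  have h2 : Nat.card (Y ⧸ g.ker) = Nat.card g.range :=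
    Nat.card_congr (QuotientAddGroup.quotientKerEquivRange g).toEquiv
  rw [h1, h2, hker, mul_comm]

theorem card_range_of_injective {X Y : Type*} [AddCommGroup X] [AddCommGroup Y]
    (f : X →+ Y) (hf : Function.Injective f) : Nat.card f.range = Nat.card X :=
  (Nat.card_congr (AddMonoidHom.ofInjective hf).toEquiv).symm

theorem card_range_of_surjective {X Y : Type*} [AddCommGroup X] [AddCommGroup Y]
    (f : X →+ Y) (hf : Function.Surjective f) : Nat.card f.range = Nat.card Y := by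
  rw [AddMonoidHom.range_eq_top.mpr hf]
  exact Nat.card_congr AddSubgroup.topEquiv.toEquiv

/-- **nine-term exact sequences**: `|X₁||X₃||X₅||X₇||X₉| = |X₂||X₄||X₆||X₈|` -/
theorem card_nine_term {X₁ X₂ X₃ X₄ X₅ X₆ X₇ X₈ X₉ : Type*}
    [AddCommGroup X₁] [AddCommGroup X₂] [AddCommGroup X₃] [AddCommGroup X₄] [AddCommGroup X₅]
    [AddCommGroup X₆] [AddCommGroup X₇] [AddCommGroup X₈] [AddCommGroup X₉]
    [Finite X₂] [Finite X₃] [Finite X₄] [Finite X₅] [Finite X₆] [Finite X₇] [Finite X₈]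
    (a₁ : X₁ →+ X₂) (a₂ : X₂ →+ X₃) (a₃ : X₃ →+ X₄) (a₄ : X₄ →+ X₅) (a₅ : X₅ →+ X₆)
    (a₆ : X₆ →+ X₇) (a₇ : X₇ →+ X₈) (a₈ : X₈ →+ X₉)
    (h₁ : Function.Injective a₁)
    (h₂ : ∀ y, a₂ y = 0 ↔ ∃ x, a₁ x = y) (h₃ : ∀ y, a₃ y = 0 ↔ ∃ x, a₂ x = y)
    (h₄ : ∀ y, a₄ y = 0 ↔ ∃ x, a₃ x = y) (h₅ : ∀ y, a₅ y = 0 ↔ ∃ x, a₄ x = y)
    (h₆ : ∀ y, a₆ y = 0 ↔ ∃ x, a₅ x = y) (h₇ : ∀ y, a₇ y = 0 ↔ ∃ x, a₆ x = y)
    (h₈ : ∀ y, a₈ y = 0 ↔ ∃ x, a₇ x = y) (h₉ : Function.Surjective a₈) :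
    Nat.card X₁ * Nat.card X₃ * Nat.card X₅ * Nat.card X₇ * Nat.card X₉ =
      Nat.card X₂ * Nat.card X₄ * Nat.card X₆ * Nat.card X₈ := by
  have e1 := card_range_of_injective a₁ h₁
  have e2 := card_eq_mul_of_exact a₁ a₂ h₂
  have e3 := card_eq_mul_of_exact a₂ a₃ h₃
  have e4 := card_eq_mul_of_exact a₃ a₄ h₄
  have e5 := card_eq_mul_of_exact a₄ a₅ h₅
  have e6 := card_eq_mul_of_exact a₅ a₆ h₆
  have e7 := card_eq_mul_of_exact a₆ a₇ h₇
  have e8 := card_eq_mul_of_exact a₇ a₈ h₈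
  have e9 := card_range_of_surjective a₈ h₉
  rw [← e1, ← e9, e2, e3, e4, e5, e6, e7, e8]
  ring

end Abstract

section Complexes

variable {k : Type} [CommRing k] {K L M : Cpx k} {f : Cpx.Hom K L} {g : Cpx.Hom L M}

/-- **the long exact sequence in cardinalities** -/
theorem card_les_of_isSES (S : Cpx.IsSES f g)
    [Finite (L.H 0)] [Finite (M.H 0)] [Finite (K.H 1)] [Finite (L.H 1)] [Finite (M.H 1)]
    [Finite (K.H 2)] [Finite (L.H 2)] (hK3 : ∀ x : K.H 3, x = 0) :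
    Nat.card (K.H 0) * Nat.card (M.H 0) * Nat.card (L.H 1) * Nat.card (K.H 2) * Nat.card (M.H 2) =
      Nat.card (L.H 0) * Nat.card (K.H 1) * Nat.card (M.H 1) * Nat.card (L.H 2) := by
  refine card_nine_term (f.mapH 0).toAddMonoidHom (g.mapH 0).toAddMonoidHom
    (S.δ 0).toAddMonoidHom (f.mapH 1).toAddMonoidHom (g.mapH 1).toAddMonoidHom
    (S.δ 1).toAddMonoidHom (f.mapH 2).toAddMonoidHom (g.mapH 2).toAddMonoidHom
    S.mapH_zero_injective (S.exact_mid 0) (S.exact_right 0) (S.exact_left 0) (S.exact_mid 1)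
    (S.exact_right 1) (S.exact_left 1) (S.exact_mid 2) ?_
  intro y
  exact (S.exact_right 2 y).mp (hK3 _)

end Complexes

section Smooth

variable {G : Type} [Group G] (𝒰 : OpenBasis G)

/-- **the long exact cohomology sequence in cardinalities**, for a short exact sequence of
coefficient modules with smooth middle term, finite cohomology and `H³(A) = 0` -/
theorem card_les_Hsm {A B C : Rep.{0} ℤ G} (i : A ⟶ B) (π : B ⟶ C) (hB : IsSm 𝒰 B)
    (hi : Function.Injective i.hom) (hπ : Function.Surjective π.hom)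
    (hex : ∀ b : B, π.hom b = 0 ↔ ∃ a, i.hom a = b)
    [Finite (Hsm 𝒰 B 0)] [Finite (Hsm 𝒰 C 0)] [Finite (Hsm 𝒰 A 1)] [Finite (Hsm 𝒰 B 1)]
    [Finite (Hsm 𝒰 C 1)] [Finite (Hsm 𝒰 A 2)] [Finite (Hsm 𝒰 B 2)]
    (hA3 : ∀ x : Hsm 𝒰 A 3, x = 0) :
    Nat.card (Hsm 𝒰 A 0) * Nat.card (Hsm 𝒰 C 0) * Nat.card (Hsm 𝒰 B 1) * Nat.card (Hsm 𝒰 A 2) *
        Nat.card (Hsm 𝒰 C 2) =
      Nat.card (Hsm 𝒰 B 0) * Nat.card (Hsm 𝒰 A 1) * Nat.card (Hsm 𝒰 C 1) * Nat.card (Hsm 𝒰 B 2) :=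
  card_les_of_isSES (Csm.map_isSES i π hB hi hπ hex) hA3

end Smooth

end Fermat.Agent.S56lib.Fin
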