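/-
S56 marathon, block (E1) "finiteness" (helper5), file 6: **the global Euler characteristic is additive.**
For finite `𝔽_p[G_ℚ]`-modules unramified outside `S ∋ p`, `p` odd:

* `hS S M n := |Hⁿ_sm(G_ℚ, M)|` (topology of `G_S`, hub model `Hsm (basisS S) (toIntRep M) n`),
  `hS_zero`, `hS_one`, `hS_two` : `= |M^{G_ℚ}|`, `|H1S S M|`, `|H2S S M|`;
* `hS_pos`, `exists_hS_eq_pow` : the orders are powers of `p`;
* `card_les_global` : multiplicativity over a short exact sequence `0 → A → B → C → 0`, **given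
  `H³_sm(G_ℚ, A) = 0`** (helper8's `h3_eq_zero`);
* `chiS S M : ℤ := v_p(h⁰) − v_p(h¹) + v_p(h²)`, `chiS_add`, `chiS_congr`.
-/
import Mathlib
import Fermat.Agent.S56lib.Fin.Main
import Fermat.Agent.S56lib.Fin.Additive

set_option autoImplicit false
set_option linter.unusedSectionVars false
set_option linter.style.haveILetI false

noncomputable section

namespace Fermat.Agent.S56lib.Fin

open groupCohomology Fermat.Agent.S55lib Fermat.Agent.S55lib.CFDual ExtCitation CategoryTheory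

section ToInt

variable {k G : Type} [CommRing k] [Group G]

/-- restriction of scalars to `ℤ` on morphisms -/
def toIntHom {A B : Rep.{0} k G} (f : A ⟶ B) : toIntRep A ⟶ toIntRep B :=
  Rep.ofHom
    { toLinearMap := f.hom.toLinearMap.toAddMonoidHom.toIntLinearMap
      isIntertwining' := by
        intro g
        apply LinearMap.ext
        intro a
        exact Rep.hom_comm_apply f g a }

@[simp] lemma toIntHom_apply {A B : Rep.{0} k G} (f : A ⟶ B) (a : A) :
    (toIntHom f).hom (a : toIntRep A) = f.hom a := rfl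

end ToInt

section H0

variable {G : Type} [Group G] (𝒰 : OpenBasis G)

/-- `H⁰_sm(G, A)` is the module of invariants (for a smooth module) -/
theorem card_H0_eq {k : Type} [CommRing k] (A : Rep.{0} k G) :
    Nat.card (Hsm 𝒰 (toIntRep A) 0) = Nat.card A.ρ.invariants := by
  let F : (Csm 𝒰 (toIntRep A)).Z 0 → A.ρ.invariants := fun z =>
    ⟨(Csm.fn₀ z.1 : A), (Representation.mem_invariants _ _).2 fun g =>
      (Csm.d_zero_eq_zero_iff z.1).1 ((Csm 𝒰 (toIntRep A)).mem_Z.1 z.2) g⟩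
  have hF : Function.Bijective F := by
    constructor
    · intro z z' h
      exact Subtype.ext (Csm.ext₀ (congrArg Subtype.val h))
    · rintro ⟨a, ha⟩
      have ha' : ∀ g, (toIntRep A).ρ g a = a := (Representation.mem_invariants _ _).1 ha
      obtain ⟨U, hU⟩ := 𝒰.nonempty
      refine ⟨⟨Csm.mk₀ (a : toIntRep A) ⟨U, hU, fun s _ => ha' s⟩, ?_⟩, rfl⟩
      rw [Cpx.mem_Z, Csm.d_zero_eq_zero_iff]
      exact ha'
  let E : (Csm 𝒰 (toIntRep A)).Z 0 → Hsm 𝒰 (toIntRep A) 0 := fun z =>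
    (Csm 𝒰 (toIntRep A)).cl z.1 ((Csm 𝒰 (toIntRep A)).mem_Z.1 z.2)
  have hE : Function.Bijective E := by
    constructor
    · intro z z' h
      have h1 := Cpx.cl_eq_cl_iff.1 h
      rw [Cpx.mem_B_zero] at h1
      exact Subtype.ext (sub_eq_zero.1 h1)
    · intro x
      obtain ⟨x0, hx0, rfl⟩ := (Csm 𝒰 (toIntRep A)).exists_rep x
      exact ⟨⟨x0, (Csm 𝒰 (toIntRep A)).mem_Z.2 hx0⟩, rfl⟩
  rw [← Nat.card_eq_of_bijective E hE, Nat.card_eq_of_bijective F hF]

end H0

variable (S : Finset Nat.Primes) {p : ℕ} [hp : Fact p.Prime]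

/-- the order of `Hⁿ(G_S, M)` (hub model) -/
def hS (M : Rep.{0} (ZMod p) GQ) (n : ℕ) : ℕ := Nat.card (Hsm (basisS S) (toIntRep M) n)

section Orders

variable (M : Rep.{0} (ZMod p) GQ) [FiniteDimensional (ZMod p) M]
  (hM : Sm.IsSmooth (MonoidHom.id GQ) (LevelClass.unr S) M)

theorem hS_zero : hS S M 0 = Nat.card M.ρ.invariants :=
  card_H0_eq (basisS S) M

theorem hS_one : hS S M 1 = Nat.card (H1S S M) :=
  Nat.card_eq_of_bijective (PT.φ1G S M) (PT.φ1G_bijective S M)

include hM in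
theorem hS_two : hS S M 2 = Nat.card (H2S S M) :=
  Nat.card_eq_of_bijective (PT.φ2 S M) (PT.φ2_bijective S M hM)

variable (hp2 : p ≠ 2) (hpS : (⟨p, hp.out⟩ : Nat.Primes) ∈ S)

theorem finite_hub_zero : Finite (Hsm (basisS S) (toIntRep M) 0) := finite_H0 (basisS S) _

include hp2 hpS hM in
theorem finite_hub_one : Finite (Hsm (basisS S) (toIntRep M) 1) :=
  finite_H1_global hp2 hpS (toIntRep M) (PT.isSm_M S M hM) (nsmul_toIntRep M)

include hp2 hpS hM in
theorem finite_hub_two : Finite (Hsm (basisS S) (toIntRep M) 2) := by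
  haveI := finite_H2S S M hp2 hpS hM
  exact Finite.of_injective (PT.φ2 S M) (PT.φ2_bijective S M hM).1

theorem exists_card_eq_pow_of_module {X : Type*} [AddCommGroup X] [Module (ZMod p) X]
    [Finite X] : ∃ n : ℕ, Nat.card X = p ^ n := by
  haveI : Module.Finite (ZMod p) X := Module.Finite.of_finite
  refine ⟨Module.finrank (ZMod p) X, ?_⟩
  rw [Module.natCard_eq_pow_finrank (K := ZMod p) (V := X), Nat.card_zmod]

/-- a finite abelian group killed by `p` has `p`-power order -/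
theorem exists_card_eq_pow {X : Type*} [AddCommGroup X] [Finite X] (hX : ∀ x : X, p • x = 0) :
    ∃ n : ℕ, Nat.card X = p ^ n := by
  letI : Module (ZMod p) X := AddCommGroup.zmodModule hX
  exact exists_card_eq_pow_of_module (p := p)

theorem nsmul_hub (n : ℕ) (x : Hsm (basisS S) (toIntRep M) n) : p • x = 0 := by
  obtain ⟨z, hz, rfl⟩ := (Csm (basisS S) (toIntRep M)).exists_rep x
  have h0 : p • z = 0 := by
    apply Subtype.ext
    funext g
    exact nsmul_toIntRep M (z.1 g)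
  unfold Cpx.cl
  rw [← map_nsmul]
  have : p • (⟨z, (Csm (basisS S) (toIntRep M)).mem_Z.2 hz⟩ :
      (Csm (basisS S) (toIntRep M)).Z n) = 0 := Subtype.ext h0
  rw [this, map_zero]

include hp2 hpS hM in
/-- the orders `hⁿ`, `n ≤ 2`, are powers of `p` -/
theorem exists_hS_eq_pow (n : ℕ) (hn : n ≤ 2) : ∃ e : ℕ, hS S M n = p ^ e := by
  have h0 := finite_hub_zero S M
  have h1 := finite_hub_one S M hM hp2 hpS
  have h2 := finite_hub_two S M hM hp2 hpS
  interval_cases n
  · exact exists_card_eq_pow (nsmul_hub S M 0)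
  · exact exists_card_eq_pow (nsmul_hub S M 1)
  · exact exists_card_eq_pow (nsmul_hub S M 2)

end Orders

section Additive

variable {A B C : Rep.{0} (ZMod p) GQ} [FiniteDimensional (ZMod p) A]
  [FiniteDimensional (ZMod p) B] [FiniteDimensional (ZMod p) C]
  (hA : Sm.IsSmooth (MonoidHom.id GQ) (LevelClass.unr S) A)
  (hB : Sm.IsSmooth (MonoidHom.id GQ) (LevelClass.unr S) B)
  (hC : Sm.IsSmooth (MonoidHom.id GQ) (LevelClass.unr S) C)
  (hp2 : p ≠ 2) (hpS : (⟨p, hp.out⟩ : Nat.Primes) ∈ S)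

include hA hB hC hp2 hpS in
/-- **multiplicativity of the orders over a short exact sequence**, given `H³(G_S, A) = 0` -/
theorem card_les_global (f : A ⟶ B) (g : B ⟶ C) (hf : Function.Injective f.hom)
    (hg : Function.Surjective g.hom) (hex : ∀ b : B, g.hom b = 0 ↔ ∃ a, f.hom a = b)
    (hA3 : ∀ x : Hsm (basisS S) (toIntRep A) 3, x = 0) :
    hS S A 0 * hS S C 0 * hS S B 1 * hS S A 2 * hS S C 2 =
      hS S B 0 * hS S A 1 * hS S C 1 * hS S B 2 := by
  haveI := finite_hub_zero S B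
  haveI := finite_hub_zero S C
  haveI := finite_hub_one S A hA hp2 hpS
  haveI := finite_hub_one S B hB hp2 hpS
  haveI := finite_hub_one S C hC hp2 hpS
  haveI := finite_hub_two S A hA hp2 hpS
  haveI := finite_hub_two S B hB hp2 hpS
  exact card_les_Hsm (basisS S) (toIntHom f) (toIntHom g) (PT.isSm_M S B hB) hf hg hex hA3

end Additive

section Chi

/-- **the global Euler characteristic** `χ(G_S, M) = dim H⁰ − dim H¹ + dim H²` (as the `p`-adic
valuations of the orders) -/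
def chiS (M : Rep.{0} (ZMod p) GQ) : ℤ :=
  (padicValNat p (hS S M 0) : ℤ) - padicValNat p (hS S M 1) + padicValNat p (hS S M 2)

variable {A B C : Rep.{0} (ZMod p) GQ} [FiniteDimensional (ZMod p) A]
  [FiniteDimensional (ZMod p) B] [FiniteDimensional (ZMod p) C]
  (hA : Sm.IsSmooth (MonoidHom.id GQ) (LevelClass.unr S) A)
  (hB : Sm.IsSmooth (MonoidHom.id GQ) (LevelClass.unr S) B)
  (hC : Sm.IsSmooth (MonoidHom.id GQ) (LevelClass.unr S) C)
  (hp2 : p ≠ 2) (hpS : (⟨p, hp.out⟩ : Nat.Primes) ∈ S)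

include hA hB hC hp2 hpS in
/-- **additivity of the global Euler characteristic**, given `H³(G_S, A) = 0` -/
theorem chiS_add (f : A ⟶ B) (g : B ⟶ C) (hf : Function.Injective f.hom)
    (hg : Function.Surjective g.hom) (hex : ∀ b : B, g.hom b = 0 ↔ ∃ a, f.hom a = b)
    (hA3 : ∀ x : Hsm (basisS S) (toIntRep A) 3, x = 0) :
    chiS S B = chiS S A + chiS S C := by
  have h := card_les_global S hA hB hC hp2 hpS f g hf hg hex hA3
  obtain ⟨a0, ha0⟩ := exists_hS_eq_pow S A hA hp2 hpS 0 (by omega)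
  obtain ⟨a1, ha1⟩ := exists_hS_eq_pow S A hA hp2 hpS 1 (by omega)
  obtain ⟨a2, ha2⟩ := exists_hS_eq_pow S A hA hp2 hpS 2 (by omega)
  obtain ⟨b0, hb0⟩ := exists_hS_eq_pow S B hB hp2 hpS 0 (by omega)
  obtain ⟨b1, hb1⟩ := exists_hS_eq_pow S B hB hp2 hpS 1 (by omega)
  obtain ⟨b2, hb2⟩ := exists_hS_eq_pow S B hB hp2 hpS 2 (by omega)
  obtain ⟨c0, hc0⟩ := exists_hS_eq_pow S C hC hp2 hpS 0 (by omega)
  obtain ⟨c1, hc1⟩ := exists_hS_eq_pow S C hC hp2 hpS 1 (by omega)
  obtain ⟨c2, hc2⟩ := exists_hS_eq_pow S C hC hp2 hpS 2 (by omega)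
  rw [ha0, ha1, ha2, hb0, hb1, hb2, hc0, hc1, hc2, ← pow_add, ← pow_add, ← pow_add, ← pow_add,
    ← pow_add, ← pow_add, ← pow_add] at h
  have h' := Nat.pow_right_injective hp.out.two_le h
  unfold chiS
  rw [ha0, ha1, ha2, hb0, hb1, hb2, hc0, hc1, hc2]
  simp only [padicValNat.prime_pow]
  omega

/-- invariance of the orders under isomorphisms -/
theorem hS_congr {A B : Rep.{0} (ZMod p) GQ} (e : A ≅ B) (n : ℕ) : hS S A n = hS S B n := by
  have h1 : ∀ x, (Csm.map (basisS S) (toIntHom e.inv)).mapH n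
      ((Csm.map (basisS S) (toIntHom e.hom)).mapH n x) = x := by
    intro x
    obtain ⟨x0, hx0, rfl⟩ := (Csm (basisS S) (toIntRep A)).exists_rep x
    rw [Cpx.Hom.mapH_cl, Cpx.Hom.mapH_cl]
    refine (Cpx.cl_congr _ ?_ _)
    apply Subtype.ext
    funext γ
    show e.inv.hom (e.hom.hom (x0.1 γ)) = x0.1 γ
    have := congrArg (fun φ : A ⟶ A => φ.hom (x0.1 γ)) e.hom_inv_id
    exact this
  have h2 : ∀ y, (Csm.map (basisS S) (toIntHom e.hom)).mapH n
      ((Csm.map (basisS S) (toIntHom e.inv)).mapH n y) = y := by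
    intro y
    obtain ⟨y0, hy0, rfl⟩ := (Csm (basisS S) (toIntRep B)).exists_rep y
    rw [Cpx.Hom.mapH_cl, Cpx.Hom.mapH_cl]
    refine (Cpx.cl_congr _ ?_ _)
    apply Subtype.ext
    funext γ
    show e.hom.hom (e.inv.hom (y0.1 γ)) = y0.1 γ
    have := congrArg (fun φ : B ⟶ B => φ.hom (y0.1 γ)) e.inv_hom_id
    exact this
  exact Nat.card_eq_of_bijective _
    (Function.bijective_iff_has_inverse.2 ⟨_, h1, h2⟩)

theorem chiS_congr {A B : Rep.{0} (ZMod p) GQ} (e : A ≅ B) : chiS S A = chiS S B := by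
  unfold chiS
  rw [hS_congr S e 0, hS_congr S e 1, hS_congr S e 2]

end Chi

end Fermat.Agent.S56lib.Fin
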